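/-
GATE-E / LLQ@3, RISK-5 fix (B) + RISK-3, the TOP of the P3B twin tree, `p`-new branch (helper28):
TWIN of `Fermat.Agent.GB.B9.ProviderNew.Top` for EVERY ODD prime `p`, over the twin
`GE8/P3B/GB/B9/ProviderFlat/Top` (same `FramedEnum`, `LevelConcl`, `false_of_levels`).  Wrapper
namespace `Fermat.Agent.GE8.P3B` (conventions of helper24 / helper86); declaration names unchanged.

Changes w.r.t. the original (everything else VERBATIM):
* `NewCtx.hp5 : 5 ≤ p` ↦ `NewCtx.hp2 : p ≠ 2`;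
* ONE NEW FIELD `NewCtx.hpΔ : (p : ℤ) ∣ W.Δ` (`W` is MULTIPLICATIVE at `p`) — it replaces the two
  uses of `5 ≤ p` below this file that were not `p ≠ 2, 3`:
  - the strictness clause of `hbar` (`HbarSO.hbar_SO_pkg P C.hp5 …`, through
    `StrictPkg.residual_isStrictOrdinaryAt_pkg` with `hside : p = 3 → 2 ∣ M`) becomes helper33's
    `GE7/DictW/ResStrictW.rb_baseChange_isStrictOrdinaryAt_of_mult … C.hΔ C.hss C.hpΔ P.k` (Tate curve,
    no side condition);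
  - `hside_new hp5 (N0new Q q)` of `G3Pkg.exists_psi_pkg_strict` is removed by DESIDE
    (`GE8/Deside/G3Pkg.exists_psi_pkg_strict_noSide`, `GE8/Deside/Final.galPkgSONoSideNew`).
  At the top (`CaseB38minE p`, MINIMAL level `M`, `p ∣ M`) the field is free: `W` good at `p` is
  excluded by level lowering at `p` (E8.4, good case, `GE8/LLP/OrdFinal.llpSides`);
* `newFO_of_levelStmtNew : LevelStmtNew → CaseB38minNewFO` ↦
  `newFOΔAt_of_levelStmtNew : LevelStmtNew → ∀ p, p ≠ 2 → NewFOΔAt p`, where `NewFOΔAt p` is helper86's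
  `CaseBTop.NewFOAt p` with the extra binder `(p : ℤ) ∣ W.Δ`.
-/
import Fermat.Agent.GE8.P3B.GB.B9.ProviderFlat.Top
import Fermat.Agent.GB.Top.SplitMinOrd

set_option linter.dupNamespace false
open Fermat Fermat.Agent Fermat.Agent.GB Fermat.Agent.GB.B9

namespace Fermat.Agent.GE8.P3B

set_option autoImplicit false
set_option linter.unusedSectionVars false
set_option linter.unusedVariables false

open WeierstrassCurve WeierstrassCurve.Affine WeierstrassCurve.Affine.Point IsLocalRing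
open scoped WeierstrassCurve.Affine

namespace GB.B9.ProviderNew.Top

open GB.Setup.SetupPkg GB.Setup.RhoBar
open GB.Top.S43Frey GB.Top.SplitMin GB.Top.SplitMinOrd
open GB.B9.ProviderFlat.Top

/-- `ℚ̄`. -/
local notation "Qb" => AlgebraicClosure ℚ
/-- `G_ℚ`. -/
local notation "GQ" => (AlgebraicClosure ℚ ≃ₐ[ℚ] AlgebraicClosure ℚ)

/-- **the CASE-B (`p`-new, minimal, ordinary) binders**, bundled. -/
structure NewCtx (p : ℕ) [Fact p.Prime] (W : WeierstrassCurve ℤ)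
    (hcard₁ : Nat.card (Submodule.torsionBy ℤ
      ((W.map (Int.castRingHom ℚ))⁄(AlgebraicClosure ℚ)).Point p) = p ^ 2)
    (hker : GaloisFactorsThroughFiniteLevel
      (galoisRepModuleEnd (K := AlgebraicClosure ℚ) ℚ (W.map (Int.castRingHom ℚ)) p))
    (M q : ℕ) : Prop where
  hp2 : p ≠ 2
  hΔ : W.Δ ≠ 0
  hss : W.IsSemistableModel
  hpΔ : (p : ℤ) ∣ W.Δ
  hirr : W.ModRepIsIrreducible p
  htrans : ∃ σ : GQ,
    galoisRepModuleEnd (K := Qb) ℚ (W.map (Int.castRingHom ℚ)) p σ ≠ 1 ∧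
      (galoisRepModuleEnd (K := Qb) ℚ (W.map (Int.castRingHom ℚ)) p σ - 1) ^ 2 = 0
  hordbar : (GaloisRepAdic.ofResidualGaloisRep (rb p W hcard₁ hker)).IsOrdinaryAt p
  hq : q.Prime
  hq2 : q ≠ 2
  hqp : q ≠ p
  hqM : q ∣ M
  hsf : Squarefree M
  hpM : p ∣ M
  hX : ¬ W.IsResiduallyModularOfLevel p (M / p)
  hunr : (rb p W hcard₁ hker).IsUnramifiedAt q
  hres : W.IsResiduallyModularOfLevel p M
  hno : ¬ W.IsResiduallyModularOfLevel p (M / q)
  hq1 : q % p = 1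
  hscal : ScalarFrob38 W p q
  hSg : ∀ ℓ : ℕ, ℓ.Prime → ℓ ∣ M → ℓ ≠ p →
    ¬ (rb p W hcard₁ hker).IsUnramifiedAt ℓ ∨ (ℓ % p = 1 ∧ ScalarFrob38 W p ℓ)

/-- **what the Taylor–Wiles levels owe in the `p`-new branch.** -/
def LevelStmtNew : Prop :=
  ∀ (p : ℕ) [Fact p.Prime] (W : WeierstrassCurve ℤ)
    (hcard₁ : Nat.card (Submodule.torsionBy ℤ
      ((W.map (Int.castRingHom ℚ))⁄(AlgebraicClosure ℚ)).Point p) = p ^ 2)
    (hker : GaloisFactorsThroughFiniteLevel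
      (galoisRepModuleEnd (K := AlgebraicClosure ℚ) ℚ (W.map (Int.castRingHom ℚ)) p))
    (M q : ℕ) (_ : NewCtx p W hcard₁ hker M q)
    (a n' : ℕ) (_ : q - 1 = p ^ a * n') (_ : ¬ p ∣ n') (_ : 1 ≤ a)
    (P : Pkg p W hcard₁ hker M a) (s : ℕ) (ℓ : Fin (s + 1) → ℕ) (_ : FramedEnum P q s ℓ)
    (h : P.O) (_ : 2 * h = 1), LevelConcl P ℓ h

/-- **the `p`-new contradiction form of CASE B at the prime `p`, `W` multiplicative at `p`**
(helper86's `CaseBTop.NewFOAt p` with the extra binder `(p : ℤ) ∣ W.Δ`). -/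
def NewFOΔAt (p : ℕ) [Fact p.Prime] : Prop :=
  ∀ (W : WeierstrassCurve ℤ) (_ : W.Δ ≠ 0) (_ : W.IsSemistableModel) (_ : (p : ℤ) ∣ W.Δ)
    (hcard₁ : Nat.card (Submodule.torsionBy ℤ
      ((W.map (Int.castRingHom ℚ))⁄(AlgebraicClosure ℚ)).Point p) = p ^ 2)
    (hker : GaloisFactorsThroughFiniteLevel
      (galoisRepModuleEnd (K := AlgebraicClosure ℚ) ℚ (W.map (Int.castRingHom ℚ)) p))
    (_ : W.ModRepIsIrreducible p)
    (_ : GB.Top.FreyTwo.Transvection.HasTransvectionModP (W.map (Int.castRingHom ℚ)) p)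
    (_ : (GaloisRepAdic.ofResidualGaloisRep (rb p W hcard₁ hker)).IsOrdinaryAt p)
    (M q : ℕ) (_ : q.Prime) (_ : q ≠ p) (_ : q ∣ M) (_ : Squarefree M) (_ : p ∣ M)
    (_ : ¬ W.IsResiduallyModularOfLevel p (M / p))
    (_ : (rb p W hcard₁ hker).IsUnramifiedAt q)
    (_ : W.IsResiduallyModularOfLevel p M)
    (_ : ¬ W.IsResiduallyModularOfLevel p (M / q))
    (_ : q % p = 1) (_ : ScalarFrob38 W p q)
    (_ : ∀ ℓ : ℕ, ℓ.Prime → ℓ ∣ M → ℓ ≠ p →
      ¬ (rb p W hcard₁ hker).IsUnramifiedAt ℓ ∨ (ℓ % p = 1 ∧ ScalarFrob38 W p ℓ)),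
    False

/-- **`NewFOΔAt p` (every odd `p`) from the Taylor–Wiles levels.** -/
theorem newFOΔAt_of_levelStmtNew (hL : LevelStmtNew) (p : ℕ) [Fact p.Prime] (hp2 : p ≠ 2) :
    NewFOΔAt p := by
  intro W hΔ hss hpΔ hcard₁ hker hirr htrans hordbar M q hq hqp hqM hsf hpM hX hunr hres
    hno hq1 hscal hSg
  have hq2 : q ≠ 2 := ne_two_of_mod_eq_one Fact.out hp2 hq1
  have C : NewCtx p W hcard₁ hker M q :=
    ⟨hp2, hΔ, hss, hpΔ, hirr, htrans, hordbar, hq, hq2, hqp, hqM, hsf, hpM, hX, hunr, hres, hno,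
      hq1, hscal, hSg⟩
  exact false_of_levels hp2 hΔ hirr htrans hq hqp hqM hsf hunr hres hq1 hSg
    (fun a n' hfac hn' ha P s ℓ E h hh =>
      hL p W hcard₁ hker M q C a n' hfac hn' ha P s ℓ E h hh)

end GB.B9.ProviderNew.Top

end Fermat.Agent.GE8.P3B
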