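/-
GATE-B / B9 PROVIDER, `p`-NEW (strict-ordinary) branch, **group G3 AT A TAYLOR–WILES SET**
(helper32): `ProviderNew.G3Pkg.exists_psi_pkg_strict` on helper51's level datum
`twQ Q … = Q.tw1F …` — `Mod := (twQ Q …).L1.M × (twQ Q …).Lχ.M`, `tw := prodTw tw₁ twχ` for ANY pair
of actions `tw₁`, `twχ` of the Hecke algebra of forms of level `N₀ * p` (G2's `TQCompat.tw1`,
`twChi`), where the forms level is a VARIABLE with the equation of `TwInst.exists_tw_primeData`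

  `hN₀ : N₀ * p = Q.N * ∏ i : Fin (1 + g), rOf Q.qv q i`.

Discharged here: the instances `Module.Finite / Module.Free / Nontrivial` (`FreeLevelInst`),
`Fact (LocHyp …)`, the level arithmetic `h : ExactDvd p (N₀ * p)`, `hside`, `hNprimes`, `hexact`
(`G3Level`), `q₀ := q ∈ P.Su`.  What stays: the residual eigensystem (`hpS hNS hfrobQ`, helper39's
`PkgLevel.exists_thetaQ`), `hordbar`, G2's `LocHyp`, and the module-level annihilator statement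
`hAnn` for `LamNew` (helper44 `AnnPlugEq.hAnn_plug_new_of_eq'` / helper15 `HAnnQ`).
-/
import Fermat.Agent.GB.B9.ProviderNew.G3Pkg
import Fermat.Agent.GE8.P3B.GB.B9.ProviderFlat.G3Level
import Fermat.Agent.GE8.P3B.GB.B9.ProviderFlat.LowerQ
import Fermat.Agent.GB.B3.FreeLevelInst
import Fermat.Agent.GB.B4.Datum.TQFields
import Fermat.Agent.GE8.P3B.StepGen
import Fermat.Agent.GE8.P3B.Ok3W
import Fermat.Agent.GE8.Deside.G3PkgR
import Fermat.Agent.GE8.Deside.Final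

/- TWIN (helper6 B4 generator; conventions of helper24 / helper86) of `Fermat.Agent.GB.B9.ProviderNew.G3Q` with `p ≠ 3` relaxed to `Ok3A Sy 𝔪 p` / `Ok3W p W` (RISK-5 fix (B), step B4); everything below lives in the wrapper namespace `Fermat.Agent.GE8.P3B`. -/
set_option linter.dupNamespace false
open Fermat Fermat.Agent Fermat.Agent.GB Fermat.Agent.GB.B10 Fermat.Agent.GB.B10.KumLevelHecke Fermat.Agent.GB.B10.L Fermat.Agent.GB.B10.L.StrictQNew Fermat.Agent.GB.B10.L.ThetaNew Fermat.Agent.GB.B3 Fermat.Agent.GB.B3.FreeLevelInst Fermat.Agent.GB.B4 Fermat.Agent.GB.B4.Datum Fermat.Agent.GB.B4.Datum.ImageRing Fermat.Agent.GB.B4.Datum.TQFields Fermat.Agent.GB.B9 Fermat.Agent.GB.B9.ProviderFlat Fermat.Agent.GB.B9.ProviderFlat.H1 Fermat.Agent.GB.B9.ProviderNew Fermat.Agent.GB.Def Fermat.Agent.GB.Def.FramedNodes Fermat.Agent.GB.Setup Fermat.Agent.GB.Setup.SetupPkg Fermat.Agent.GK Fermat.Agent.GK.AL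

namespace Fermat.Agent.GE8.P3B

set_option autoImplicit false
set_option linter.style.haveILetI false
set_option linter.unusedSectionVars false
set_option linter.unusedVariables false

open WeierstrassCurve WeierstrassCurve.Affine.Point IsLocalRing
open scoped WeierstrassCurve.Affine

noncomputable section

namespace GB.B9.ProviderNew.G3Q

open TensorProduct CuspForm Polynomial GaloisRep GK.AL
  GB.B4.Datum.ImageRing GB.B4.Datum.TQFields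
  GB.Def.FramedNodes GB.Setup.SetupPkg
  GB.B10.KumLevelHecke GB.B10.L.ThetaNew
  GB.B10.L.StrictQNew
  GB.B9.ProviderFlat.G1 GB.B9.ProviderFlat.H1
  GB.B9.ProviderFlat.LowerQ GB.B9.ProviderFlat.G3Level
  GB.B3.FreeLevelInst

local notation "GQ" => (AlgebraicClosure ℚ ≃ₐ[ℚ] AlgebraicClosure ℚ)
local notation "Qb" => AlgebraicClosure ℚ

variable {p : ℕ} [Fact p.Prime] {W : WeierstrassCurve ℤ}
  {hcard₁ : Nat.card (Submodule.torsionBy ℤ
    ((W.map (Int.castRingHom ℚ))⁄(AlgebraicClosure ℚ)).Point p) = p ^ 2}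
  {hker : GaloisFactorsThroughFiniteLevel
    (galoisRepModuleEnd (K := AlgebraicClosure ℚ) ℚ (W.map (Int.castRingHom ℚ)) p)}
  {M a : ℕ} {P : Pkg p W hcard₁ hker M a} {g n : ℕ} (Q : TWSet P g n)
  {q : ℕ} (hq : q.Prime) (hqM : q ∣ M) (hsq : Squarefree M) (hcong : p ^ a ∣ q - 1)
  (hp3 : Ok3W p W)

include hq hsq in
/-- `p ∥ N₀ p` for a forms level `N₀ p = Q.N ∏ r_i`, `p ∥ M`. -/
theorem exactDvd_of_eq {N₀ : ℕ} (hN₀ : N₀ * p = Q.N * ∏ i : Fin (1 + g), rOf Q.qv q i)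
    (hpM : p ∣ M) (hqp : q ≠ p) : ExactDvd p (N₀ * p) := by
  rw [hN₀, ← N0new_mul_p Q q hpM]
  exact exactDvd_new Q hq hsq hpM hqp

/-- the instances of `exists_psi_pkg_strict` at `Mod := (twQ Q …).L1.M × (twQ Q …).Lχ.M` -/
theorem finite_twQ : Module.Finite P.O
    ((twQ Q hq hqM hsq hcong hp3).L1.M × (twQ Q hq hqM hsq hcong hp3).Lχ.M) :=
  finite_prod _

theorem free_twQ : Module.Free P.O
    ((twQ Q hq hqM hsq hcong hp3).L1.M × (twQ Q hq hqM hsq hcong hp3).Lχ.M) :=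
  free_prod _

theorem nontrivial_twQ : Nontrivial
    ((twQ Q hq hqM hsq hcong hp3).L1.M × (twQ Q hq hqM hsq hcong hp3).Lχ.M) :=
  nontrivial_prod _ (fun i => TWSet.Nfun_pos1 i) (Q.d1F_pos hq hqM hsq hcong hp3)

/-- **G3 (strict-ordinary branch) at the Taylor–Wiles set `Q`**, on `twQ Q …`. -/
theorem exists_psi_Q_strict {N₀ : ℕ} [NeZero N₀]
    (hN₀ : N₀ * p = Q.N * ∏ i : Fin (1 + g), rOf Q.qv q i)
    (hpM : p ∣ M) (hqp : q ≠ p) (hqSu : q ∈ P.Su)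
    {SQ : Finset ℕ} {θQ : heckeAlgebra (N₀ * p) 2 (↑SQ : Set ℕ) →+* P.k}
    (hpS : p ∈ SQ) (hNS : ∀ ℓ : ℕ, ℓ.Prime → ℓ ∣ N₀ * p → ℓ ∈ SQ)
    (hfrobQ : ∀ (ℓ : ℕ) (hℓ : ℓ.Prime) (hℓN : ¬ ℓ ∣ N₀ * p) (hℓS : ℓ ∉ (↑SQ : Set ℕ))
      (Pl : ValuationSubring Qb), Pl.LiesOverPrime ℓ → ∀ σ : GQ, Pl.IsFrobeniusAt σ ℓ →
        LinearMap.charpoly (P.rhobar.ρ σ) =
          X ^ 2 - C (θQ (heckeAlgebra.T hℓ hℓN hℓS)) * X + C ((ℓ : ℕ) : P.k))
    (hordbar : (GaloisRepAdic.ofResidualGaloisRep P.rhobar).IsOrdinaryAt p)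
    (tw₁ : heckeAlgebra (N₀ * p) 2 (↑SQ : Set ℕ) →+*
      Module.End P.O (twQ Q hq hqM hsq hcong hp3).L1.M)
    (twχ : heckeAlgebra (N₀ * p) 2 (↑SQ : Set ℕ) →+*
      Module.End P.O (twQ Q hq hqM hsq hcong hp3).Lχ.M)
    (hloc : LocHyp P.O θQ (prodTw P.O tw₁ twχ))
    (hAnn : ∀ t₀ : P.O ⊗[ℤ] heckeAlgebra (N₀ * p) 2 (↑SQ : Set ℕ),
      (∀ (c : P.O), ∀ x ∈ (LamNew (not_dvd_of_exactDvd (exactDvd_of_eq Q hq hsq hN₀ hpM hqp)) :
          AddSubgroup (levelData p (N₀ * p) hpS hNS).Λ),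
        (levelData p (N₀ * p) hpS hNS).heckeTensor P.O t₀ (c ⊗ₜ[ℤ] x) = 0) →
          ∀ m : (twQ Q hq hqM hsq hcong hp3).L1.M × (twQ Q hq hqM hsq hcong hp3).Lχ.M,
            twO P.O (prodTw P.O tw₁ twχ) t₀ m = 0)
    (DQ : DeformationRingData P.O P.rhobar
      (framedCond p (strictOrdinaryCondition P.O p) P.Smin P.Su (Finset.univ.image Q.qv))) :
    haveI := finite_twQ Q hq hqM hsq hcong hp3
    haveI := free_twQ Q hq hqM hsq hcong hp3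
    haveI := nontrivial_twQ Q hq hqM hsq hcong hp3
    haveI : Fact (LocHyp P.O θQ (prodTw P.O tw₁ twχ)) := ⟨hloc⟩
    ∃ (ψ : DQ.R →ₐ[P.O] TQ P.O θQ (prodTw P.O tw₁ twχ))
      (hψ : IsLocalHom (ψ : DQ.R →+* TQ P.O θQ (prodTw P.O tw₁ twχ)))
      (ρQ : GaloisRepAdic (TQ P.O θQ (prodTw P.O tw₁ twχ))),
      Function.Surjective ψ ∧
      (DQ.ρ.baseChangeAlong (ψ : DQ.R →+* TQ P.O θQ (prodTw P.O tw₁ twχ)) hψ).IsEquiv ρQ ∧
      (∀ (ℓ : ℕ) (hℓ : ℓ.Prime) (hℓN : ¬ ℓ ∣ N₀ * p) (hℓS : ℓ ∉ (↑SQ : Set ℕ))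
        (A : ValuationSubring Qb), A.LiesOverPrime ℓ → ∀ σ : GQ, A.IsFrobeniusAt σ ℓ →
          LinearMap.charpoly (ρQ.ρ σ) =
            X ^ 2 - C (chi P.O θQ (prodTw P.O tw₁ twχ) (heckeAlgebra.T hℓ hℓN hℓS)) * X
              + C ((ℓ : TQ P.O θQ (prodTw P.O tw₁ twχ)))) ∧
      ρQ.DetIsCyclotomic p ∧
      (∀ v ∈ P.Su, v ≠ q → ρQ.IsUnipotentOnInertiaAt v) ∧
      ρQ.residual.IsEquiv
        (P.rhobar.baseChangeAlong
          (ResidueField.map (algebraMap P.O (TQ P.O θQ (prodTw P.O tw₁ twχ))))) := by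
  haveI := finite_twQ Q hq hqM hsq hcong hp3
  haveI := free_twQ Q hq hqM hsq hcong hp3
  haveI := nontrivial_twQ Q hq hqM hsq hcong hp3
  haveI : Fact (LocHyp P.O θQ (prodTw P.O tw₁ twχ)) := ⟨hloc⟩
  have hN'' : N₀ * p = Q.N * ∏ i : Fin (1 + g), rOf Q.qv q i := hN₀
  exact GE8.Deside.G3PkgR.exists_psi_pkg_strict_noSideR P
    (GE8.Deside.StrictEven.galPkgSONoSideRhobar_of_new GE8.Deside.Final.galPkgSONoSideNew)
    (exactDvd_of_eq Q hq hsq hN₀ hpM hqp) hpS hNS hfrobQ hordbar hAnn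
    Q.qv q hqSu (hNprimes_Q Q hq hqM hN'') (hexact_Q Q hq hsq hN'') DQ

end GB.B9.ProviderNew.G3Q

end

end Fermat.Agent.GE8.P3B
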