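/-
GATE-B / B9 PROVIDER, `p`-NEW (strict-ordinary) branch, **the FINAL WIRING** (helper32; twin of
helper54's `ProviderFlat.FlatGroups.groupsOn_flat / flatGroups`): `ProviderNew.LowerQ.NewGroupsStmt`,
i.e. the record `Lower.GroupsOn` on helper51's level datum `Q.tw1F …` at EVERY Taylor–Wiles set `Q`
of EVERY `p`-new context, for the strict-ordinary framed deformation problem.

`groupsOn_new` = helper54's BASE-GENERIC `FlatGroups.groupsOn_of_twP` at
`base := GaloisRep.strictOrdinaryCondition P.O p`, with THREE swaps with respect to `groupsOn_flat`: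

1. the forms level is `N'' := G3Level.N0new Q q * p` LITERALLY (`p ∥ M`), with the same equation
   `N0new Q q * p = Q.N * ∏ i : Fin (1 + g), rOf Q.qv q i` (`G3Level.N0new_mul_p`);
2. G3 := `ProviderNew.G3Pkg.exists_psi_pkg_strict` (strictly ordinary at `p`), its module-level
   annihilator binder `hAnn` for `LamNew` := helper44's `AnnG2.hAnn_tw1F_of_gen_G2` (from the
   output `(twP, hι, hD)` of `G2.exists_twP_hecke`; `hbase` from
   `hX : ¬ W.IsResiduallyModularOfLevel p (M / p)`), `hordbar` := `SupplySO.isOrdinaryAt_rhobar_pkg`;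
3. `base := strictOrdinaryCondition`.
-/
import Fermat.Agent.GE8.P3B.GB.B9.ProviderFlat.FlatGroups
import Fermat.Agent.GE8.P3B.GB.B9.ProviderNew.LowerQ
import Fermat.Agent.GE8.P3B.GB.B9.ProviderNew.G3Q
import Fermat.Agent.GB.B9.ProviderNew.SupplySO
import Fermat.Agent.GE8.P3B.GB.B10.L.AnnG2
import Fermat.Agent.GE8.P3B.StepGen
import Fermat.Agent.GE8.P3B.Ok3W
import Fermat.Agent.GE8.Deside.G3PkgR
import Fermat.Agent.GE8.Deside.Final

/- TWIN (helper6 B4 generator; conventions of helper24 / helper86) of `Fermat.Agent.GB.B9.ProviderNew.NewGroups` with `p ≠ 3` relaxed to `Ok3A Sy 𝔪 p` / `Ok3W p W` (RISK-5 fix (B), step B4); everything below lives in the wrapper namespace `Fermat.Agent.GE8.P3B`. -/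
set_option linter.dupNamespace false
open Fermat Fermat.Agent Fermat.Agent.GB Fermat.Agent.GB.B3 Fermat.Agent.GB.B3.ChiLevelMulti Fermat.Agent.GB.B3.GamH Fermat.Agent.GB.B3.HeckeActH Fermat.Agent.GB.B3.RealLevel Fermat.Agent.GB.B3.TWChars Fermat.Agent.GB.B3.TWLevel Fermat.Agent.GB.B4 Fermat.Agent.GB.B4.Datum Fermat.Agent.GB.B4.Datum.ImageRing Fermat.Agent.GB.B4.Datum.TQFields Fermat.Agent.GB.B9 Fermat.Agent.GB.B9.ProviderFlat Fermat.Agent.GB.B9.ProviderFlat.H1 Fermat.Agent.GB.B9.ProviderFlat.Lower Fermat.Agent.GB.B9.ProviderNew Fermat.Agent.GB.B9.ThetaSupply Fermat.Agent.GB.B9.ThetaT Fermat.Agent.GB.Def Fermat.Agent.GB.Def.FramedNodes Fermat.Agent.GB.Def.LocGenInst Fermat.Agent.GB.Setup Fermat.Agent.GB.Setup.SetupPkg Fermat.Agent.GJ Fermat.Agent.GJ.J2 Fermat.Agent.GJ.J2.Lat Fermat.Agent.GM Fermat.Agent.GM.B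

namespace Fermat.Agent.GE8.P3B

set_option autoImplicit false
set_option linter.unusedSectionVars false
set_option linter.unusedVariables false
set_option linter.style.haveILetI false

open WeierstrassCurve WeierstrassCurve.Affine.Point IsLocalRing
open scoped WeierstrassCurve.Affine
open scoped MatrixGroups
open CongruenceSubgroup ModularCurve.Period CuspForm Polynomial

namespace GB.B9.ProviderNew.NewGroups

open GM.B
open GB.B3.HeckeActH GB.B3.RealLevel GB.B3.Tower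
  GB.B3.TWChars GB.B3.FinalTW GB.B3.Plug
  GB.B3.TWLevel GB.B3.GamH GB.B3.ChiLevelMulti
  GB.B3.Final
open GJ.J2.Lat
open GB.B4.Datum.ImageRing GB.B4.Datum.TQFields
open GB.Setup.SetupPkg
open GB.Def.FramedNodes GB.Def.LocGenInst
open GB.B9.ThetaT GB.B9.ThetaSupply
open GB.B9.ProviderFlat GB.B9.ProviderFlat.Lower
  GB.B9.ProviderFlat.G1 GB.B9.ProviderFlat.H1
  GB.B9.ProviderFlat.Top GB.B9.ProviderFlat.FlatGroups
  GB.B9.ProviderFlat.G3Level
open GB.B9.ProviderNew.Top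

/-- local instance (Prop-valued class) -/
local instance factPrimeOffNG {S : Set ℕ} (l : PrimesOff S) : Fact (l.1 : ℕ).Prime := ⟨l.1.2⟩

noncomputable section

variable {p : ℕ} [hpF : Fact p.Prime] {W : WeierstrassCurve ℤ}
  {hcard₁ : Nat.card (Submodule.torsionBy ℤ
    ((W.map (Int.castRingHom ℚ))⁄(AlgebraicClosure ℚ)).Point p) = p ^ 2}
  {hker : GaloisFactorsThroughFiniteLevel
    (galoisRepModuleEnd (K := AlgebraicClosure ℚ) ℚ (W.map (Int.castRingHom ℚ)) p)}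
  {M : ℕ}

/-- **the groups at ONE Taylor–Wiles set, `p`-new branch**. -/
theorem groupsOn_new {a : ℕ} {P : Pkg p W hcard₁ hker M a} {g n : ℕ} (Q : TWSet P g n)
    {q : ℕ} (hq : q.Prime) (hqM : q ∣ M) (hsq : Squarefree M) (hcong : p ^ a ∣ q - 1)
    (hp3 : Ok3W p W) (ha : 1 ≤ a) (hpM : p ∣ M) (hqp : q ≠ p)
    (hno : ¬ W.IsResiduallyModularOfLevel p (M / q))
    (hX : ¬ W.IsResiduallyModularOfLevel p (M / p))
    (hordbar : (GaloisRepAdic.ofResidualGaloisRep P.rhobar).IsOrdinaryAt p)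
    {s : ℕ} {ℓs : Fin (s + 1) → ℕ} [Fact (ℓs (Fin.last s)).Prime] (E : FramedEnum P q s ℓs)
    (DQ : GaloisRep.DeformationRingData P.O P.rhobar
      (framedCond p (GaloisRep.strictOrdinaryCondition P.O p) P.Smin P.Su
        (Finset.univ.image Q.qv))) :
    Nonempty (GroupsOn P ℓs (GaloisRep.strictOrdinaryCondition P.O p) DQ
      (LowerQ.twQ Q hq hqM hsq hcong hp3)) := by
  -- the forms level `N0new Q q * p`, `p ∥`
  haveI : NeZero (N0new Q q) := ⟨N0new_ne_zero Q hq hpM⟩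
  haveI : NeZero (N0new Q q * p) := ⟨Nat.mul_ne_zero (N0new_ne_zero Q hq hpM) hpF.out.ne_zero⟩
  have hN'' : N0new Q q * p = Q.N * ∏ i : Fin (1 + g), rOf Q.qv q i := N0new_mul_p Q q hpM
  have hex : GK.AL.ExactDvd p (N0new Q q * p) := exactDvd_new Q hq hsq hpM hqp
  -- the residual eigensystem at the forms level
  obtain ⟨SQ, θQ, -, hpS, hNS, hbadS, hθT, hfrobQ, -⟩ :=
    GB.Setup.PkgLevel.exists_thetaQ P (G3Q.dvd_level Q hN'')
  have hQN : Q.N ∣ N0new Q q * p := by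
    rw [hN'']
    exact Dvd.intro _ rfl
  have hnd : ∀ l : PrimesOff (↑SQ : Set ℕ), ¬ (l.1 : ℕ) ∣ Q.N := G2Sym.hnd_Q Q hQN SQ hNS
  -- G2 : half-diamonds, the twisted action on the big level
  obtain ⟨dℓ, hdℓ⟩ := G2.exists_dl_theta (Q.primeData hq hqM hsq hcong) (1 + g)
    (Nat.le_of_eq (Nat.add_comm 1 g)) P.hp2 (↑SQ : Set ℕ) hnd
  have hsym : ∀ l : PrimesOff (↑SQ : Set ℕ), ∃ i : Q.Sy.ι₁, Q.Sy.ℓ i = (l.1 : ℕ) ∧
      θQ (formsGenS (N0new Q q * p) (↑SQ : Set ℕ) l) = Q.lamTop (MvPolynomial.X (Sum.inl i)) :=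
    G2Sym.hsym_Q Q hQN SQ hNS hpS hbadS θQ hθT
  have hev : ∀ t ∈ Q.𝔪, Q.lamTop t = 0 := G2Sym.hev_Q Q
  have key := G2.exists_twP_hecke Q.Sy Q.𝔪 (Q.primeData hq hqM hsq hcong) (Q.hyp hp3) 1 g
    (G7.TWSetG7.squarefree_N Q hsq) (Nat.le_of_eq (Nat.add_comm 1 g)) hN'' SQ hNS dℓ hdℓ hnd
    Q.lamTop hev θQ hsym
  obtain ⟨twP, hι, hD, -, hlocP⟩ := key
  -- the instances on `M¹_Q × M^χ_Q`
  haveI := fact_locHyp Q hq hqM hsq hcong hp3 (LowerQ.hζpow P) (LowerQ.hζsub P) twP hD θQ hlocP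
  haveI := GB.B3.FreeLevelInst.finite_prod
    (twR Q hq hqM hsq hcong hp3 (LowerQ.hζpow P) (LowerQ.hζsub P))
  haveI := GB.B3.FreeLevelInst.free_prod
    (twR Q hq hqM hsq hcong hp3 (LowerQ.hζpow P) (LowerQ.hζsub P))
  haveI := GB.B3.FreeLevelInst.nontrivial_prod
    (twR Q hq hqM hsq hcong hp3 (LowerQ.hζpow P) (LowerQ.hζsub P))
    (fun i => TWSet.Nfun_pos1 i) (Q.d1F_pos hq hqM hsq hcong hp3)
  have hqSu : q ∈ P.Su := E.last ▸ E.mem (Fin.last s)
  -- (ANN) for `LamNew` (helper44)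
  have hAnn := GB.B10.L.AnnG2.hAnn_tw1F_of_gen_G2 Q hq hqM hsq hcong hp3
    (LowerQ.hζpow P) (LowerQ.hζsub P) hpM hqp hN''
    (GB.B10.L.StrictQNew.not_dvd_of_exactDvd hex) SQ hpS hNS hX dℓ hdℓ hnd twP hι hD
  -- G3, strict-ordinary branch
  have key3 := GE8.Deside.G3PkgR.exists_psi_pkg_strict_noSideR P
    (GE8.Deside.StrictEven.galPkgSONoSideRhobar_of_new GE8.Deside.Final.galPkgSONoSideNew)
    (θQ := θQ)
    (tw := prodTw P.O (tw₁Q Q hq hqM hsq hcong hp3 (LowerQ.hζpow P) (LowerQ.hζsub P) twP hD)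
      (twχQ Q hq hqM hsq hcong hp3 (LowerQ.hζpow P) (LowerQ.hζsub P) twP hD))
    hex hpS hNS hfrobQ hordbar hAnn Q.qv q hqSu
    (hNprimes_Q Q hq hqM hN'') (hexact_Q Q hq hsq hN'') DQ
  obtain ⟨ψ, hψl, ρQ, hψ, hequiv, hρ, hdet, hu0, hres⟩ := key3
  have hu : ∀ v, v ≠ Fin.last s → ρQ.IsUnipotentOnInertiaAt (ℓs v) := fun v hv =>
    hu0 (ℓs v) (E.mem v) fun hvq => hv (E.inj (by rw [hvq, E.last]))
  exact groupsOn_of_twP Q hq hqM hsq hcong hp3 (LowerQ.hζpow P) (LowerQ.hζsub P) twP hD θQ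
    ℓs E.last (GaloisRep.strictOrdinaryCondition P.O p) DQ hno hqp (LowerQ.hζne P ha)
    (P.mem_Su_iff.mp hqSu).2.2.2 hN'' hpS hNS hsym hfrobQ dℓ hdℓ hnd hι hlocP
    ψ hψl ρQ hψ hequiv hρ hdet hu hres

/-- **THE `p`-NEW GROUPS**: `ProviderNew.LowerQ.NewGroupsStmt`. -/
theorem newGroups : GB.B9.ProviderNew.LowerQ.NewGroupsStmt := by
  intro p _ W hcard₁ hker M q C a n' hfac hn' ha P s ℓ E Sig hSig g
  haveI : Fact (ℓ (Fin.last s)).Prime := ⟨E.prime _⟩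
  intro n Q hTW3 DQ hΘ
  exact groupsOn_new Q C.hq C.hqM C.hsf (LowerQ.hcong_of_fac hfac) (Ok3W.of_semistable C.hss) ha
    C.hpM C.hqp C.hno C.hX
    (GB.B9.ProviderNew.SupplySO.isOrdinaryAt_rhobar_pkg P C.hordbar) E DQ

end

end GB.B9.ProviderNew.NewGroups

end Fermat.Agent.GE8.P3B
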