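/-
GATE-B / GB-PNEW, leaf (hAnn)-CONCRETE (helper39; helper32 board 6595): **the annihilator statement
(ANN) on the `𝔪`-primary part of the big Taylor–Wiles level, over a zero base, and its descent to
the two coinvariant quotients** — the module-level binder `(hAnn)` of
`GalPkgSOImg.exists_galRep_TQ_strict` / `ProviderNew.G3.exists_psi_TQ_strict`.

The level is `N q` with `q ∤ N` the prime at which the forms are new (`q = p` in the application),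
the characters are `θ = thQ (Theta (Δs p e) H.psi j) q` for the prime data `H` at level `N`; the
twisted level (chain level) is `N'' q`.

* `twO_eq_zero_of_isLoc` : (ANN) ∘ (HC) ∘ (L1).  For ANY ring hom `tw` with the generator formula
  `htw` (helper44 `TwInst.exists_tw_primeData`), the chain binders of `TwR.primeData_hyps`, and
  `hbase : Hom(Γ₀(N), O)_𝔪 = 0`: every `t₀ ∈ O ⊗ heckeAlgebra (N'' q) 2 S` killing `O ⊗ LamNew`
  kills every parabolic class in the `𝔪`-primary part, `twO O tw t₀ v = 0`.  The character `θ` is a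
  VARIABLE with an equation `hθeq : θ = thQ (Theta …) q` (so that consumers whose objects are spelled
  with `Theta (Δs p e) H'.psi j` at level `N q` need no cast: they prove the equation by `ext`).
* `hAnn_prod_of_isLoc` : the descent `V ⊇ P ↠ M₁, M₂` — `σ` on `P` intertwined with `tw` by an
  injective `ι` with values in the `𝔪`-primary part, `a₁`, `a₂` on `M₁`, `M₂` intertwined with `σ`
  by surjections `f₁`, `f₂` ⟹ the binder `(hAnn)` for `TQFields.prodTw O a₁ a₂` on `M₁ × M₂`.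
-/
import Fermat.Agent.GE8.P3B.GB.B10.L.AnnNew
import Fermat.Agent.GB.B10.L.AnnDescend
import Fermat.Agent.GE8.P3B.GB.B10.L2.HCores
import Fermat.Agent.GB.B10.L.GalPkgSOImg
import Fermat.Agent.GE8.P3B.StepGen
import Fermat.Agent.GE8.P3B.Ok3W

/- TWIN (helper6 B4 generator; conventions of helper24 / helper86) of `Fermat.Agent.GB.B9.ProviderNew.HAnn` with `p ≠ 3` relaxed to `Ok3A Sy 𝔪 p` / `Ok3W p W` (RISK-5 fix (B), step B4); everything below lives in the wrapper namespace `Fermat.Agent.GE8.P3B`. -/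
set_option linter.dupNamespace false
open Fermat Fermat.Agent Fermat.Agent.GB Fermat.Agent.GB.B10 Fermat.Agent.GB.B10.L Fermat.Agent.GB.B10.L.ThetaNew Fermat.Agent.GB.B3 Fermat.Agent.GB.B3.EisGamma0 Fermat.Agent.GB.B3.GamH Fermat.Agent.GB.B3.HeckeActH Fermat.Agent.GB.B3.RealLevel Fermat.Agent.GB.B3.TWChars Fermat.Agent.GB.B3.TWLevel Fermat.Agent.GB.B4 Fermat.Agent.GB.B4.Datum Fermat.Agent.GB.B4.Datum.ImageRing Fermat.Agent.GB.B4.Twist Fermat.Agent.GB.B4.Twist.Asm Fermat.Agent.GB.B4.Twist.Chain Fermat.Agent.GB.B4.Twist.ChainD Fermat.Agent.GB.B4.Twist.Coeff Fermat.Agent.GB.B7 Fermat.Agent.GB.B7.UqSq Fermat.Agent.GJ Fermat.Agent.GJ.J2 Fermat.Agent.GJ.J2.Lat Fermat.Agent.GJ.J2.LatAct Fermat.Agent.GJ.J2.ZStruct Fermat.Agent.GJ.Tate Fermat.Agent.GJ.Tate.Lim Fermat.Agent.GM Fermat.Agent.GM.B Fermat.Agent.S16_helper49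

namespace Fermat.Agent.GE8.P3B

set_option autoImplicit false
set_option linter.unusedSectionVars false

noncomputable section

open scoped MatrixGroups TensorProduct
open CongruenceSubgroup Matrix Matrix.SpecialLinearGroup ModularCurve.Period CuspForm
open S16_helper49 GM.B
open GB.B3 GB.B3.EisGamma0 GB.B3.GamH
open GJ.J2.ZStruct GJ.J2.Lat GJ.J2.LatAct
open GB.B4.Twist.Chain GB.B4.Twist.ChainD
open GB.B4.Twist.Asm GB.B4.Twist.Coeff GB.B4.Twist.TwR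
open GB.B4.Datum.ImageRing GJ.Tate GJ.Tate.Lim
open GB.B10.L.ThetaNew
open GB.B3.TWLevel GB.B3.RealLevel
  GB.B3.HeckeActH GB.B3.TWChars GB.B3.FinalTW
  GB.B3.Tower GB.B3.StepInst GB.B3.LocTransport
  GB.B3.LocTransportInst GB.B3.LocTransportInstD
open GB.B7.UqSq

namespace GB.B9.ProviderNew.HAnn

/-- local instance (Prop-valued class) -/
local instance factPrimeOffHAnn {S : Set ℕ} (l : PrimesOff S) : Fact (l.1 : ℕ).Prime := ⟨l.1.2⟩

section Tower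

variable {N q p N'' : ℕ} [NeZero N] [NeZero (N * q)] [NeZero N''] [NeZero (N'' * q)]
  [Fact q.Prime] [hpF : Fact p.Prime] {Kk : ℕ} {r e N' : ℕ → ℕ}
variable (Sy : Symbols (N * q)) (hrN : ∀ j, Sy.r j ∣ N) (hqN : ¬ q ∣ N)
variable {O : Type} [CommRing O] [IsDomain O] [IsPrincipalIdealRing O] [IsLocalRing O]
  [IsAdicComplete (IsLocalRing.maximalIdeal O) O] [Module.IsTorsionFree ℤ O]
variable (𝔪 : Ideal (Sy.𝕋 O)) [𝔪.IsMaximal]
variable (H : PrimeData N p Kk r e N') {ϖ : O} {s0 : Sy.ι₁}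
  (h : Plug.Hyp (restrict Sy hrN) 𝔪 p ϖ s0)
variable {K : Type} [Field K] [CharZero K] [Algebra O K]

include h hqN in
/-- **(ANN) on the `𝔪`-primary part over a zero base.** -/
theorem twO_eq_zero_of_isLoc
    (hbase : ∀ y : Additive (Gamma0 N) →+ O,
      IsLoc (HeckeActH.act0 (restrict Sy hrN) O) 𝔪 y → y = 0) (j : ℕ)
    {θ : (ZMod (N * q))ˣ →* (∀ i : Fin j, Δs p e i)}
    (hθeq : θ = thQ (Theta (Δs p e) H.psi j) q) (hθ : Function.Surjective θ)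
    (S : Finset ℕ) (hqS : q ∈ S)
    (hNS : ∀ ℓ : ℕ, ℓ.Prime → ℓ ∣ N'' * q → ℓ ∈ S) (hNN' : N * q ∣ N'' * q)
    (hinj : Function.Injective (algebraMap O K))
    [Fintype ((∀ i : Fin j, Δs p e i) →* Kˣ)]
    [HasEnoughRootsOfUnity K (Monoid.exponent (∀ i : Fin j, Δs p e i))]
    (Lε : ((∀ i : Fin j, Δs p e i) →* Kˣ) → List (TwDatum K (∀ i : Fin j, Δs p e i)))
    (dℓ : PrimesOff (↑S : Set ℕ) → Gamma0 (N * q))
    (hadm : ∀ ε, Adm (N * q) θ (Lε ε)) (hlev : ∀ ε, chainLevel (N * q) (Lε ε) = N'' * q)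
    (rep' : ∀ ε, (∀ i : Fin j, Δs p e i) → Gamma0 (chainLevel (N * q) (Lε ε)))
    (hrep' : ∀ ε δ, chi (chainθ (N * q) θ (Lε ε)) (rep' ε δ) = δ)
    (hsq : ∀ ε, ∀ d ∈ Lε ε, ¬ d.r ^ 2 ∣ N * q)
    (hnd : ∀ ε, (Lε ε).Pairwise (fun d e => d.r ≠ e.r))
    (hψ : ∀ ε, ∀ d ∈ Lε ε, (∀ v : (ZMod d.r)ˣ, d.ψ (v : ZMod d.r) = 1) ∨
      ∃ v : (ZMod d.r)ˣ, d.ψ (v : ZMod d.r) ^ 2 ≠ 1)
    (hν : ∀ (ε : (∀ i : Fin j, Δs p e i) →* Kˣ) (δ : ∀ i : Fin j, Δs p e i),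
      ((Lε ε).map (fun d => d.ν)).prod δ = ε δ)
    (hc : ∀ (ε : (∀ i : Fin j, Δs p e i) →* Kˣ) (l : PrimesOff (↑S : Set ℕ)),
      ((ε (chi θ (dℓ l)) : Kˣ) : K) * chainPsi (Lε ε) (l.1 : ℕ) = 1)
    (tw : ↥(heckeAlgebra (N'' * q) 2 (↑S : Set ℕ)) →+*
      Module.End O ↥(parabolicHoms O (GammaH θ) O))
    (htw : ∀ (l : PrimesOff (↑S : Set ℕ)) (v : ↥(parabolicHoms O (GammaH θ) O)),
      ((tw (formsGenS (N'' * q) (↑S : Set ℕ) l) v : ↥(parabolicHoms O (GammaH θ) O)) :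
          Additive (GammaH θ) →+ O)
        = diaH θ O (dℓ l) (GamH.TH θ O
            (not_dvd_level (↑S : Set ℕ) (GB.B10.L.Ann.hS_of_hNS S hNS) hNN' l)
            (v : Additive (GammaH θ) →+ O)))
    (hqN'' : ¬ q ∣ N'')
    (t₀ : O ⊗[ℤ] ↥(heckeAlgebra (N'' * q) 2 (↑S : Set ℕ)))
    (ht₀ : ∀ (a : O),
      ∀ Φ ∈ (LamNew hqN'' : AddSubgroup
        (GB.B10.KumLevelHecke.levelData q (N'' * q) hqS hNS).Λ),
      (GB.B10.KumLevelHecke.levelData q (N'' * q) hqS hNS).heckeTensor O t₀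
        (a ⊗ₜ[ℤ] Φ) = 0)
    (v : ↥(parabolicHoms O (GammaH θ) O))
    (hv : IsLoc (actH Sy O θ) 𝔪 (v : Additive (GammaH θ) →+ O)) :
    twO O tw t₀ v = 0 := by
  subst hθeq
  refine GB.B10.L.AnnNew.ann_lamNew _ hθ S hqS hNS hNN' hinj Lε dℓ hadm hlev rep'
    hrep' hsq hnd hψ hν hc tw htw hqN''
    {w | IsLoc (actH Sy O (thQ (Theta (Δs p e) H.psi j) q)) 𝔪
      (w : Additive (GammaH (thQ (Theta (Δs p e) H.psi j) q)) →+ O)}
    (fun w hw ε => ?_) t₀ ht₀ v hv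
  exact GB.B10.L2.HCores.hcores_of_tower Sy hrN hqN 𝔪 H h hbase j hθ (Lε ε)
    (hadm ε) hqN'' (rep' ε) (hrep' ε) (hlev ε) ε hw

end Tower

/-! ### descent to the two coinvariant quotients -/

section Descent

variable {O : Type} [CommRing O] [IsLocalRing O] {A : Type} [CommRing A]
  {V P M₁ M₂ : Type} [AddCommGroup V] [Module O V] [AddCommGroup P] [Module O P]
  [AddCommGroup M₁] [Module O M₁] [AddCommGroup M₂] [Module O M₂]

/-- **the binder `(hAnn)` for the product action on `M₁ × M₂`** from (ANN) on a set `Loc` of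
classes of the big module `V` containing the image of `P`. -/
theorem hAnn_prod_of_isLoc (Kills : O ⊗[ℤ] A → Prop)
    (tw : A →+* Module.End O V) (Loc : Set V)
    (hV : ∀ t₀ : O ⊗[ℤ] A, Kills t₀ → ∀ v ∈ Loc, twO O tw t₀ v = 0)
    (σ : A →+* Module.End O P) (ι : P →ₗ[O] V) (hι : ∀ t y, ι (σ t y) = tw t (ι y))
    (hιinj : Function.Injective ι) (hιLoc : ∀ y, ι y ∈ Loc)
    (a₁ : A →+* Module.End O M₁) (f₁ : P →ₗ[O] M₁) (hf₁ : ∀ t y, f₁ (σ t y) = a₁ t (f₁ y))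
    (hs₁ : Function.Surjective f₁)
    (a₂ : A →+* Module.End O M₂) (f₂ : P →ₗ[O] M₂) (hf₂ : ∀ t y, f₂ (σ t y) = a₂ t (f₂ y))
    (hs₂ : Function.Surjective f₂) :
    ∀ t₀ : O ⊗[ℤ] A, Kills t₀ → ∀ m : M₁ × M₂,
      twO O (GB.B4.Datum.TQFields.prodTw O a₁ a₂) t₀ m = 0 :=
  GB.B10.L.GalPkgSOImg.hAnn_prodTw a₁ a₂ Kills
    (fun t₀ ht₀ => GB.B10.L.AnnDescend.hAnn_of_chain tw σ a₁ ι hι hιinj f₁ hf₁ hs₁ t₀
      (fun y => hV t₀ ht₀ (ι y) (hιLoc y)))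
    (fun t₀ ht₀ => GB.B10.L.AnnDescend.hAnn_of_chain tw σ a₂ ι hι hιinj f₂ hf₂ hs₂ t₀
      (fun y => hV t₀ ht₀ (ι y) (hιLoc y)))

end Descent

end GB.B9.ProviderNew.HAnn
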