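/-
GATE-B / GB-PNEW, leaf (hAnn)-CONCRETE, the instance at B3's BIG LEVEL (helper39; helper32 6595):
the module-level binder `(hAnn)` for the two quotients of `Plug.bigLevel`, in the vocabulary of
helper74 `TwRestrictPlug.exists_twP` (the twist action `twP` on `(bigLevel Sy 𝔪 Hb hb j).M`,
characterised through `(bigReal …).ι`).

The big level lives at level `N q` (`q ∤ N` the prime where the forms are new), with the prime data
`Hb : PrimeData (N q) p K r e N'b`; the tower of (L1)/(HC) lives at level `N`, with the prime data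
`primeData_lower Hb` (same primes `r i`, cofactors `N'b i / q`).  Seam lemmas:

* `primeData_lower`  : `PrimeData (N q) p K r e N'b ⟹ PrimeData N p K r e (N'b · / q)` (`r i ≠ q`);
* `theta_eq_thQ`     : `Theta (Δs p e) Hb.psi j = thQ (Theta (Δs p e) H.psi j) q`;
* `hyp_restrict`     : `Plug.Hyp Sy 𝔪 p ϖ s0 ⟹ Plug.Hyp (restrict Sy hrN) 𝔪 p ϖ s0`;
* **`hAnn_bigLevel`** : `HAnn.twO_eq_zero_of_isLoc` + `HAnn.hAnn_prod_of_isLoc` at
  `P := (bigLevel Sy 𝔪 Hb hb j).M`, `ι := (bigReal …).ι`.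
-/
import Fermat.Agent.GE8.P3B.GB.B9.ProviderNew.HAnn
import Fermat.Agent.GE8.P3B.GB.B4.Datum.TwRestrictPlug
import Fermat.Agent.GE8.P3B.StepGen
import Fermat.Agent.GE8.P3B.Ok3W

/- TWIN (helper6 B4 generator; conventions of helper24 / helper86) of `Fermat.Agent.GB.B9.ProviderNew.HAnnBig` with `p ≠ 3` relaxed to `Ok3A Sy 𝔪 p` / `Ok3W p W` (RISK-5 fix (B), step B4); everything below lives in the wrapper namespace `Fermat.Agent.GE8.P3B`. -/
set_option linter.dupNamespace false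
open Fermat Fermat.Agent Fermat.Agent.GB Fermat.Agent.GB.B10 Fermat.Agent.GB.B10.L Fermat.Agent.GB.B10.L.ThetaNew Fermat.Agent.GB.B3 Fermat.Agent.GB.B3.EisGamma0 Fermat.Agent.GB.B3.GamH Fermat.Agent.GB.B3.HeckeActH Fermat.Agent.GB.B3.RealLevel Fermat.Agent.GB.B3.TWChars Fermat.Agent.GB.B3.TWLevel Fermat.Agent.GB.B4 Fermat.Agent.GB.B4.Datum Fermat.Agent.GB.B4.Datum.ImageRing Fermat.Agent.GB.B4.Twist Fermat.Agent.GB.B4.Twist.Asm Fermat.Agent.GB.B4.Twist.Chain Fermat.Agent.GB.B4.Twist.ChainD Fermat.Agent.GB.B4.Twist.Coeff Fermat.Agent.GB.B7 Fermat.Agent.GB.B7.UqSq Fermat.Agent.GJ Fermat.Agent.GJ.J2 Fermat.Agent.GJ.J2.Lat Fermat.Agent.GJ.J2.LatAct Fermat.Agent.GJ.J2.ZStruct Fermat.Agent.GJ.Tate Fermat.Agent.GJ.Tate.Lim Fermat.Agent.GM Fermat.Agent.GM.B Fermat.Agent.S16_helper49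

namespace Fermat.Agent.GE8.P3B

set_option autoImplicit false
set_option linter.unusedSectionVars false

noncomputable section

open scoped MatrixGroups TensorProduct
open CongruenceSubgroup Matrix Matrix.SpecialLinearGroup ModularCurve.Period CuspForm
open S16_helper49 GM.B
open GB.B3 GB.B3.EisGamma0 GB.B3.GamH
open GJ.J2.ZStruct GJ.J2.Lat GJ.J2.LatAct
open GB.B4.Twist.Chain GB.B4.Twist.ChainD
open GB.B4.Twist.Asm GB.B4.Twist.Coeff GB.B4.Twist.TwR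
open GB.B4.Datum.ImageRing GJ.Tate GJ.Tate.Lim
open GB.B10.L.ThetaNew
open GB.B3.TWLevel GB.B3.RealLevel
  GB.B3.HeckeActH GB.B3.TWChars GB.B3.FinalTW
  GB.B3.Tower GB.B3.StepInst GB.B3.LocTransport
  GB.B3.LocTransportInst GB.B3.LocTransportInstD
open GB.B7.UqSq GB.B3.Plug

namespace GB.B9.ProviderNew.HAnnBig

/-- local instance (Prop-valued class) -/
local instance factPrimeOffHAnnBig {S : Set ℕ} (l : PrimesOff S) : Fact (l.1 : ℕ).Prime :=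
  ⟨l.1.2⟩

/-! ### seam lemmas -/

section Seam

variable {N q p K : ℕ} {r e N'b : ℕ → ℕ}

/-- **the prime data at the lower level `N`** from the prime data at level `N q`. -/
theorem primeData_lower (hq : q.Prime) (Hb : PrimeData (N * q) p K r e N'b)
    (hrq : ∀ i, i < K → r i ≠ q) : PrimeData N p K r e (fun i => N'b i / q) := by
  have hdvd : ∀ i, i < K → q ∣ N'b i := by
    intro i hi
    have h1 : q ∣ r i * N'b i := (Hb.fact i hi) ▸ Dvd.intro_left N rfl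
    rcases (Nat.Prime.dvd_mul hq).mp h1 with h2 | h2
    · exact absurd ((Nat.prime_dvd_prime_iff_eq hq (Hb.prime i hi)).mp h2).symm (hrq i hi)
    · exact h2
  refine ⟨Hb.prime, fun i hi => ?_, fun i hi => ?_, Hb.cong, Hb.inj, Hb.e_out⟩
  · have h1 := Hb.fact i hi
    obtain ⟨c, hc⟩ := hdvd i hi
    have h2 : N'b i / q = c := by rw [hc, Nat.mul_div_cancel_left c hq.pos]
    show N = r i * (N'b i / q)
    rw [h2]
    rw [hc] at h1
    have h3 : N * q = (r i * c) * q := by rw [h1]; ring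
    exact Nat.eq_of_mul_eq_mul_right hq.pos h3
  · exact Nat.Coprime.coprime_dvd_right (Nat.div_dvd_of_dvd (hdvd i hi)) (Hb.cop i hi)

variable [NeZero N] [NeZero (N * q)]

/-- **the characters of the two prime data agree**: `Theta` at level `N q` is `thQ` of `Theta` at
level `N`. -/
theorem theta_eq_thQ {N' : ℕ → ℕ} (Hb : PrimeData (N * q) p K r e N'b)
    (H : PrimeData N p K r e N') (j : ℕ) :
    Theta (Δs p e) Hb.psi j = thQ (Theta (Δs p e) H.psi j) q := by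
  refine MonoidHom.ext fun u => funext fun i => ?_
  show Hb.psi i u = H.psi i (ZMod.unitsMap (Nat.dvd_mul_right N q) u)
  unfold PrimeData.psi
  by_cases hi : (i : ℕ) < K
  · rw [dif_pos hi, dif_pos hi]
    have : Fact (r i).Prime := ⟨Hb.prime i hi⟩
    show psiR (Hb.dvd i hi) (Hb.cong i hi) u =
      psiR (H.dvd i hi) (H.cong i hi) (ZMod.unitsMap (Nat.dvd_mul_right N q) u)
    rw [psiR_apply, psiR_apply, ← MonoidHom.comp_apply (ZMod.unitsMap _) (ZMod.unitsMap _),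
      ZMod.unitsMap_comp]
  · rw [dif_neg hi, dif_neg hi]
    rfl

end Seam

section Hyp

variable {N q : ℕ} (Sy : Symbols (N * q)) (hrN : ∀ j, Sy.r j ∣ N)
variable {O : Type} [CommRing O] [IsDomain O] [IsPrincipalIdealRing O] [IsLocalRing O]
  [IsAdicComplete (IsLocalRing.maximalIdeal O) O] [Module.IsTorsionFree ℤ O]
variable (𝔪 : Ideal (Sy.𝕋 O)) [𝔪.IsMaximal]

/-- the standing hypotheses of B3 pass to the restricted symbols. -/
theorem hyp_restrict {p : ℕ} {ϖ : O} {s0 : Sy.ι₁} (hb : Plug.Hyp Sy 𝔪 p ϖ s0) :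
    Plug.Hyp (restrict Sy hrN) 𝔪 p ϖ s0 :=
  ⟨hb.hϖ0, hb.hmax, hb.hpϖ, hb.hp0, hb.hp2, hb.hp3, hb.hτ⟩

end Hyp

/-! ### the big level -/

section Big

variable {N q p N'' : ℕ} [NeZero N] [NeZero (N * q)] [NeZero N''] [NeZero (N'' * q)]
  [hqF : Fact q.Prime] [hpF : Fact p.Prime] {K : ℕ} {r e N'b : ℕ → ℕ}
variable (Sy : Symbols (N * q)) (hrN : ∀ j, Sy.r j ∣ N) (hqN : ¬ q ∣ N)
variable {O : Type} [CommRing O] [IsDomain O] [IsPrincipalIdealRing O] [IsLocalRing O]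
  [IsAdicComplete (IsLocalRing.maximalIdeal O) O] [Module.IsTorsionFree ℤ O]
variable (𝔪 : Ideal (Sy.𝕋 O)) [𝔪.IsMaximal]
variable (Hb : PrimeData (N * q) p K r e N'b) {ϖ : O} {s0 : Sy.ι₁}
  (hb : Plug.Hyp Sy 𝔪 p ϖ s0)
variable {F : Type} [Field F] [CharZero F] [Algebra O F]

include hqN in
/-- **the binder `(hAnn)` for two quotients of B3's big level**, from a zero base at level `N`. -/
theorem hAnn_bigLevel (hrq : ∀ i, i < K → r i ≠ q)
    (hbase : ∀ y : Additive (Gamma0 N) →+ O,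
      IsLoc (HeckeActH.act0 (restrict Sy hrN) O) 𝔪 y → y = 0) (j : ℕ)
    (hθ : Function.Surjective (Theta (Δs p e) Hb.psi j))
    (S : Finset ℕ) (hqS : q ∈ S)
    (hNS : ∀ ℓ : ℕ, ℓ.Prime → ℓ ∣ N'' * q → ℓ ∈ S) (hNN' : N * q ∣ N'' * q)
    (hinj : Function.Injective (algebraMap O F))
    [Fintype ((∀ i : Fin j, Δs p e i) →* Fˣ)]
    [HasEnoughRootsOfUnity F (Monoid.exponent (∀ i : Fin j, Δs p e i))]
    (Lε : ((∀ i : Fin j, Δs p e i) →* Fˣ) → List (TwDatum F (∀ i : Fin j, Δs p e i)))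
    (dℓ : PrimesOff (↑S : Set ℕ) → Gamma0 (N * q))
    (hadm : ∀ ε, Adm (N * q) (Theta (Δs p e) Hb.psi j) (Lε ε))
    (hlev : ∀ ε, chainLevel (N * q) (Lε ε) = N'' * q)
    (rep' : ∀ ε, (∀ i : Fin j, Δs p e i) → Gamma0 (chainLevel (N * q) (Lε ε)))
    (hrep' : ∀ ε δ, chi (chainθ (N * q) (Theta (Δs p e) Hb.psi j) (Lε ε)) (rep' ε δ) = δ)
    (hsq : ∀ ε, ∀ d ∈ Lε ε, ¬ d.r ^ 2 ∣ N * q)
    (hnd : ∀ ε, (Lε ε).Pairwise (fun d e => d.r ≠ e.r))
    (hψ : ∀ ε, ∀ d ∈ Lε ε, (∀ v : (ZMod d.r)ˣ, d.ψ (v : ZMod d.r) = 1) ∨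
      ∃ v : (ZMod d.r)ˣ, d.ψ (v : ZMod d.r) ^ 2 ≠ 1)
    (hν : ∀ (ε : (∀ i : Fin j, Δs p e i) →* Fˣ) (δ : ∀ i : Fin j, Δs p e i),
      ((Lε ε).map (fun d => d.ν)).prod δ = ε δ)
    (hc : ∀ (ε : (∀ i : Fin j, Δs p e i) →* Fˣ) (l : PrimesOff (↑S : Set ℕ)),
      ((ε (chi (Theta (Δs p e) Hb.psi j) (dℓ l)) : Fˣ) : F) * chainPsi (Lε ε) (l.1 : ℕ) = 1)
    (tw : ↥(heckeAlgebra (N'' * q) 2 (↑S : Set ℕ)) →+*
      Module.End O ↥(parabolicHoms O (GammaH (Theta (Δs p e) Hb.psi j)) O))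
    (htw : ∀ (l : PrimesOff (↑S : Set ℕ))
        (v : ↥(parabolicHoms O (GammaH (Theta (Δs p e) Hb.psi j)) O)),
      ((tw (formsGenS (N'' * q) (↑S : Set ℕ) l) v :
          ↥(parabolicHoms O (GammaH (Theta (Δs p e) Hb.psi j)) O)) :
          Additive (GammaH (Theta (Δs p e) Hb.psi j)) →+ O)
        = diaH (Theta (Δs p e) Hb.psi j) O (dℓ l) (GamH.TH (Theta (Δs p e) Hb.psi j) O
            (not_dvd_level (↑S : Set ℕ) (GB.B10.L.Ann.hS_of_hNS S hNS) hNN' l)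
            (v : Additive (GammaH (Theta (Δs p e) Hb.psi j)) →+ O)))
    (hqN'' : ¬ q ∣ N'')
    (hpar : ∀ m : (bigLevel Sy 𝔪 Hb hb j).M, (bigReal Sy 𝔪 Hb hb j).ι m ∈
      parabolicHoms O (GammaH (Theta (Δs p e) Hb.psi j)) O)
    (twP : ↥(heckeAlgebra (N'' * q) 2 (↑S : Set ℕ)) →+*
      Module.End O (bigLevel Sy 𝔪 Hb hb j).M)
    (htwP : ∀ (t : ↥(heckeAlgebra (N'' * q) 2 (↑S : Set ℕ)))
        (m : (bigLevel Sy 𝔪 Hb hb j).M),
      (bigReal Sy 𝔪 Hb hb j).ι (twP t m) =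
        ((tw t ⟨(bigReal Sy 𝔪 Hb hb j).ι m, hpar m⟩ :
          ↥(parabolicHoms O (GammaH (Theta (Δs p e) Hb.psi j)) O)) :
          Additive (GammaH (Theta (Δs p e) Hb.psi j)) →+ O))
    {M₁ M₂ : Type} [AddCommGroup M₁] [Module O M₁] [AddCommGroup M₂] [Module O M₂]
    (a₁ : ↥(heckeAlgebra (N'' * q) 2 (↑S : Set ℕ)) →+* Module.End O M₁)
    (f₁ : (bigLevel Sy 𝔪 Hb hb j).M →ₗ[O] M₁)
    (hf₁ : ∀ t y, f₁ (twP t y) = a₁ t (f₁ y)) (hs₁ : Function.Surjective f₁)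
    (a₂ : ↥(heckeAlgebra (N'' * q) 2 (↑S : Set ℕ)) →+* Module.End O M₂)
    (f₂ : (bigLevel Sy 𝔪 Hb hb j).M →ₗ[O] M₂)
    (hf₂ : ∀ t y, f₂ (twP t y) = a₂ t (f₂ y)) (hs₂ : Function.Surjective f₂) :
    ∀ t₀ : O ⊗[ℤ] ↥(heckeAlgebra (N'' * q) 2 (↑S : Set ℕ)),
      (∀ (a : O),
        ∀ Φ ∈ (LamNew hqN'' : AddSubgroup
          (GB.B10.KumLevelHecke.levelData q (N'' * q) hqS hNS).Λ),
        (GB.B10.KumLevelHecke.levelData q (N'' * q) hqS hNS).heckeTensor O t₀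
          (a ⊗ₜ[ℤ] Φ) = 0) →
      ∀ m : M₁ × M₂,
        twO O (GB.B4.Datum.TQFields.prodTw O a₁ a₂) t₀ m = 0 := by
  have H := primeData_lower hqF.out Hb hrq
  -- the corestriction of `ι` to the parabolic classes
  let ιV : (bigLevel Sy 𝔪 Hb hb j).M →ₗ[O]
      ↥(parabolicHoms O (GammaH (Theta (Δs p e) Hb.psi j)) O) :=
    LinearMap.codRestrict _ (bigReal Sy 𝔪 Hb hb j).ι hpar
  have hιV : ∀ m, ((ιV m : ↥(parabolicHoms O (GammaH (Theta (Δs p e) Hb.psi j)) O)) :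
      Additive (GammaH (Theta (Δs p e) Hb.psi j)) →+ O) = (bigReal Sy 𝔪 Hb hb j).ι m :=
    fun m => rfl
  refine GB.B9.ProviderNew.HAnn.hAnn_prod_of_isLoc _ tw
    {w | IsLoc (actH Sy O (Theta (Δs p e) Hb.psi j)) 𝔪
      (w : Additive (GammaH (Theta (Δs p e) Hb.psi j)) →+ O)}
    (fun t₀ ht₀ v hv =>
      GB.B9.ProviderNew.HAnn.twO_eq_zero_of_isLoc Sy hrN hqN 𝔪 H
        (hyp_restrict Sy hrN 𝔪 hb) hbase j (theta_eq_thQ Hb H j) hθ S hqS hNS hNN' hinj Lε dℓ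
        hadm hlev rep' hrep' hsq hnd hψ hν hc tw htw hqN'' t₀ ht₀ v hv)
    twP ιV ?_ ?_ ?_ a₁ f₁ hf₁ hs₁ a₂ f₂ hf₂ hs₂
  · intro t y
    apply Subtype.ext
    rw [hιV, htwP]
    rfl
  · intro x y hxy
    apply (bigReal Sy 𝔪 Hb hb j).inj
    have := congrArg Subtype.val hxy
    exact this
  · intro y
    show IsLoc (actH Sy O (Theta (Δs p e) Hb.psi j)) 𝔪 ((bigReal Sy 𝔪 Hb hb j).ι y)
    exact ((bigReal Sy 𝔪 Hb hb j).range _).1 ⟨y, rfl⟩

end Big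

end GB.B9.ProviderNew.HAnnBig
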